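/-
S25 (Jacobian), package A0 piece (helper6791): a smooth algebra over a field which is a domain is
integrally closed; if moreover it is integral over `K[x]` for one element `x`, it is a Dedekind
domain.  Mathlib-only.

Normality: locally `D_f` is étale over a polynomial ring `P` (Mathlib:
`Algebra.IsSmoothAt.exists_isStandardEtale_mvPolynomial`), smooth base change commutes with
integral closure (`TensorProduct.toIntegralClosure_bijective_of_smooth`), `P` is integrally closed,
and `D_f ⊗_P Frac P` is the fraction field of `D_f` (a domain, finite over `Frac P`).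
-/
import Mathlib

set_option autoImplicit false
set_option linter.style.haveILetI false

open scoped TensorProduct nonZeroDivisors

namespace Fermat.Agent.S25.CONN.P1.Ded6791

section EtaleNormal

variable {P S : Type*} [CommRing P] [CommRing S] [IsDomain P] [IsDomain S] [Algebra P S]

/-- `S ⊗_P Frac P` is a field when `S` is a domain, étale over the domain `P`, with `P → S`
injective. -/
theorem isField_tensor_fractionRing [Algebra.Etale P S]
    (hinj : Function.Injective (algebraMap P S)) : IsField (S ⊗[P] FractionRing P) := by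
  have hM : Algebra.algebraMapSubmonoid S P⁰ ≤ S⁰ := by
    rintro _ ⟨m, hm, rfl⟩
    refine mem_nonZeroDivisors_of_ne_zero ?_
    intro h0
    exact (nonZeroDivisors.ne_zero hm) (hinj (by rw [h0, map_zero]))
  haveI : IsDomain (S ⊗[P] FractionRing P) :=
    IsLocalization.isDomain_of_le_nonZeroDivisors (M := Algebra.algebraMapSubmonoid S P⁰) _ hM
  -- the other side: `Frac P ⊗_P S` is a finite `Frac P`-algebra
  let e : (FractionRing P ⊗[P] S) ≃ₐ[P] (S ⊗[P] FractionRing P) :=
    Algebra.TensorProduct.comm P (FractionRing P) S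
  haveI : IsDomain (FractionRing P ⊗[P] S) := e.toRingEquiv.toMulEquiv.isDomain _
  haveI : Module.Finite (FractionRing P) (FractionRing P ⊗[P] S) :=
    Algebra.FormallyUnramified.finite_of_free (FractionRing P) (FractionRing P ⊗[P] S)
  have hF : IsField (FractionRing P ⊗[P] S) :=
    isField_of_isIntegral_of_isField' (R := FractionRing P) (Field.toIsField _)
  exact e.symm.toRingEquiv.toMulEquiv.isField hF

/-- A domain étale over an integrally closed domain is integrally closed. -/
theorem isIntegrallyClosed_of_etale [IsIntegrallyClosed P] [Algebra.Etale P S]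
    (hinj : Function.Injective (algebraMap P S)) : IsIntegrallyClosed S := by
  set F := FractionRing P with hFdef
  set T := S ⊗[P] F with hTdef
  set L := FractionRing S with hLdef
  have hM : Algebra.algebraMapSubmonoid S P⁰ ≤ S⁰ := by
    rintro _ ⟨m, hm, rfl⟩
    refine mem_nonZeroDivisors_of_ne_zero ?_
    intro h0
    exact (nonZeroDivisors.ne_zero hm) (hinj (by rw [h0, map_zero]))
  have hTF : IsField T := isField_tensor_fractionRing hinj
  letI : Field T := hTF.toField
  -- the embedding of `T` into the fraction field of `S`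
  have hunit : ∀ y : Algebra.algebraMapSubmonoid S P⁰, IsUnit (algebraMap S L (y : S)) := by
    intro y
    exact IsLocalization.map_units L (⟨y.1, hM y.2⟩ : S⁰)
  let ι₀ : T →+* L := IsLocalization.lift (M := Algebra.algebraMapSubmonoid S P⁰) hunit
  have hι₀ : ∀ s : S, ι₀ (algebraMap S T s) = algebraMap S L s := fun s =>
    IsLocalization.lift_eq hunit s
  let ι : T →ₐ[S] L := { ι₀ with commutes' := hι₀ }
  have hιinj : Function.Injective ι := ι₀.injective
  rw [isIntegrallyClosed_iff L]
  intro z hz
  obtain ⟨a, b, hb, rfl⟩ := IsFractionRing.div_surjective (A := S) z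
  have hb0 : algebraMap S T b ≠ 0 := by
    intro h0
    have : algebraMap S L b = 0 := by rw [← hι₀, h0, map_zero]
    exact (nonZeroDivisors.ne_zero hb)
      ((IsFractionRing.injective S L) (by rw [this, map_zero]))
  set t : T := algebraMap S T a / algebraMap S T b with ht
  have hιt : ι t = algebraMap S L a / algebraMap S L b := by
    show ι₀ t = _
    rw [ht, map_div₀, hι₀, hι₀]
  have htint : IsIntegral S t := by
    rw [← isIntegral_algHom_iff ι hιinj, hιt]
    exact hz
  -- use that smooth base change commutes with integral closure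
  obtain ⟨ξ, hξ⟩ := (TensorProduct.toIntegralClosure_bijective_of_smooth
    (R := P) (S := S) (B := F)).2 ⟨t, htint⟩
  have key : ∀ ξ : S ⊗[P] integralClosure P F, ∃ s : S,
      ((TensorProduct.toIntegralClosure P S F ξ : integralClosure S (S ⊗[P] F)) : S ⊗[P] F)
        = algebraMap S (S ⊗[P] F) s := by
    intro ξ
    induction ξ with
    | zero => exact ⟨0, by simp⟩
    | tmul s y =>
      obtain ⟨q, hq⟩ := IsIntegrallyClosed.isIntegral_iff.mp y.2
      refine ⟨q • s, ?_⟩
      have h1 : ((TensorProduct.toIntegralClosure P S F (s ⊗ₜ[P] y) :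
          integralClosure S (S ⊗[P] F)) : S ⊗[P] F) = s ⊗ₜ[P] (y : F) := rfl
      rw [h1, ← hq, Algebra.TensorProduct.algebraMap_apply, Algebra.algebraMap_self,
        RingHom.id_apply, Algebra.algebraMap_eq_smul_one, ← TensorProduct.smul_tmul]
    | add x y hx hy =>
      obtain ⟨s₁, h₁⟩ := hx
      obtain ⟨s₂, h₂⟩ := hy
      refine ⟨s₁ + s₂, ?_⟩
      rw [map_add, Subalgebra.coe_add, h₁, h₂, map_add]
  obtain ⟨s, hs⟩ := key ξ
  have hst : algebraMap S T s = t := by
    rw [hξ] at hs
    exact hs.symm
  refine ⟨s, ?_⟩
  rw [← hιt, ← hι₀ s, hst]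
  rfl

end EtaleNormal

section SmoothNormal

/-- A nontrivial flat algebra over a domain has injective structure map. -/
theorem algebraMap_injective_of_flat {P S : Type*} [CommRing P] [CommRing S] [IsDomain P]
    [Nontrivial S] [Algebra P S] [Module.Flat P S] : Function.Injective (algebraMap P S) := by
  have htf := Module.Flat.isTorsionFree (R := P) (M := S)
  rw [injective_iff_map_eq_zero]
  intro p hp
  by_contra hp0
  have hreg : IsSMulRegular S p := htf.isSMulRegular (IsRegular.of_ne_zero hp0)
  have h1 : p • (1 : S) = p • (0 : S) := by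
    rw [smul_zero, ← Algebra.algebraMap_eq_smul_one, hp]
  exact one_ne_zero (hreg h1)

variable (K : Type*) {D : Type*} [Field K] [CommRing D] [IsDomain D] [Algebra K D]

/-- **Smooth over a field implies normal** (for domains). -/
theorem isIntegrallyClosed_of_smooth [Algebra.Smooth K D] : IsIntegrallyClosed D := by
  refine IsIntegrallyClosed.of_localization_maximal fun m _ _ => ?_
  obtain ⟨f, hfm, n, _, _, _⟩ :=
    Algebra.IsSmoothAt.exists_isStandardEtale_mvPolynomial (R := K) (p := m)
  have hf0 : f ≠ 0 := fun h => hfm (h ▸ m.zero_mem)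
  have hle : Submonoid.powers f ≤ D⁰ := powers_le_nonZeroDivisors_of_noZeroDivisors hf0
  haveI : IsDomain (Localization.Away f) :=
    IsLocalization.isDomain_of_le_nonZeroDivisors (M := Submonoid.powers f) _ hle
  haveI : IsIntegrallyClosed (Localization.Away f) :=
    isIntegrallyClosed_of_etale (P := MvPolynomial (Fin n) K) algebraMap_injective_of_flat
  -- `D_m` is a localization of `D_f`
  have hpm : Submonoid.powers f ≤ m.primeCompl := by
    rintro _ ⟨k, rfl⟩
    exact fun h => hfm (Ideal.IsPrime.mem_of_pow_mem inferInstance k h)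
  have hunits : ∀ y : Submonoid.powers f,
      IsUnit (algebraMap D (Localization.AtPrime m) (y : D)) := fun y =>
    IsLocalization.map_units (Localization.AtPrime m) (⟨y.1, hpm y.2⟩ : m.primeCompl)
  letI : Algebra (Localization.Away f) (Localization.AtPrime m) :=
    (IsLocalization.lift (M := Submonoid.powers f) hunits).toAlgebra
  haveI : IsScalarTower D (Localization.Away f) (Localization.AtPrime m) :=
    IsScalarTower.of_algebraMap_eq fun x => (IsLocalization.lift_eq hunits x).symm
  haveI : IsLocalization (Submonoid.map (algebraMap D (Localization.Away f)) m.primeCompl)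
      (Localization.AtPrime m) :=
    IsLocalization.isLocalization_of_submonoid_le (Localization.Away f) (Localization.AtPrime m)
      (Submonoid.powers f) m.primeCompl hpm
  refine isIntegrallyClosed_of_isLocalization (R := Localization.Away f) (Localization.AtPrime m)
    (Submonoid.map (algebraMap D (Localization.Away f)) m.primeCompl) ?_
  rintro _ ⟨y, hy, rfl⟩
  refine mem_nonZeroDivisors_of_ne_zero ?_
  intro h0
  have hy0 : y = 0 := IsLocalization.injective (Localization.Away f) hle (by rw [h0, map_zero])
  exact hy (hy0 ▸ m.zero_mem)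

/-- A domain integral over `K[x]` has dimension at most one. -/
theorem dimensionLEOne_of_isIntegral_adjoin (x : D)
    [Algebra.IsIntegral (Algebra.adjoin K {x}) D] : Ring.DimensionLEOne D := by
  let φ : Polynomial K →ₐ[K] D := Polynomial.aeval x
  have hmem : ∀ q : Polynomial K, φ q ∈ Algebra.adjoin K {x} := fun q => by
    rw [Algebra.adjoin_singleton_eq_range_aeval]
    exact ⟨q, rfl⟩
  let g : Polynomial K →+* Algebra.adjoin K {x} := (φ.codRestrict _ hmem).toRingHom
  have hg : Function.Surjective g := by
    rintro ⟨y, hy⟩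
    rw [Algebra.adjoin_singleton_eq_range_aeval] at hy
    obtain ⟨q, rfl⟩ := hy
    exact ⟨q, rfl⟩
  letI : Algebra (Polynomial K) D := ((algebraMap (Algebra.adjoin K {x}) D).comp g).toAlgebra
  have hint : (algebraMap (Polynomial K) D).IsIntegral :=
    RingHom.IsIntegral.trans g (algebraMap (Algebra.adjoin K {x}) D)
      (RingHom.isIntegral_of_surjective g hg) (algebraMap_isIntegral_iff.mpr inferInstance)
  haveI : Algebra.IsIntegral (Polynomial K) D := algebraMap_isIntegral_iff.mp hint
  exact Ring.DimensionLEOne.of_isIntegral (Polynomial K) D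

/-- **Smooth curves are Dedekind**: a domain smooth over a field `K` and integral over `K[x]`
is a Dedekind domain. -/
theorem isDedekindDomain_of_smooth [Algebra.Smooth K D] (x : D)
    [Algebra.IsIntegral (Algebra.adjoin K {x}) D] : IsDedekindDomain D := by
  haveI := isIntegrallyClosed_of_smooth K (D := D)
  haveI := dimensionLEOne_of_isIntegral_adjoin K x
  haveI : IsNoetherianRing D := Algebra.FiniteType.isNoetherianRing K D
  exact { }

end SmoothNormal

section BaseChange

variable (k κ : Type*) {A : Type*} [Field k] [Field κ] [Algebra k κ] [CommRing A] [Algebra k A]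

/-- Integrality over `k[x]` is preserved by base change to a field extension. -/
theorem isIntegral_adjoin_baseChange (x : A) [Algebra.IsIntegral (Algebra.adjoin k {x}) A] :
    Algebra.IsIntegral (Algebra.adjoin κ {(1 : κ) ⊗ₜ[k] x}) (κ ⊗[k] A) := by
  set B := Algebra.adjoin κ {(1 : κ) ⊗ₜ[k] x} with hB
  have hmem : ∀ r ∈ Algebra.adjoin k {x}, (1 : κ) ⊗ₜ[k] r ∈ B := by
    intro r hr
    induction hr using Algebra.adjoin_induction with
    | mem y hy =>
      rw [Set.mem_singleton_iff] at hy
      subst hy
      exact Algebra.subset_adjoin (Set.mem_singleton _)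
    | algebraMap c =>
      have : (1 : κ) ⊗ₜ[k] (algebraMap k A c) = algebraMap κ (κ ⊗[k] A) (algebraMap k κ c) := by
        rw [Algebra.TensorProduct.algebraMap_apply, Algebra.algebraMap_self, RingHom.id_apply,
          Algebra.algebraMap_eq_smul_one, Algebra.algebraMap_eq_smul_one, TensorProduct.smul_tmul]
      rw [this]
      exact Subalgebra.algebraMap_mem B _
    | add y z _ _ hy hz =>
      rw [TensorProduct.tmul_add]
      exact add_mem hy hz
    | mul y z _ _ hy hz =>
      have : (1 : κ) ⊗ₜ[k] (y * z) = ((1 : κ) ⊗ₜ[k] y) * ((1 : κ) ⊗ₜ[k] z) := by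
        rw [Algebra.TensorProduct.tmul_mul_tmul, one_mul]
      rw [this]
      exact mul_mem hy hz
  let ψ : A →+* κ ⊗[k] A := (Algebra.TensorProduct.includeRight : A →ₐ[k] κ ⊗[k] A).toRingHom
  let φ : Algebra.adjoin k {x} →+* B :=
    { toFun := fun r => ⟨(1 : κ) ⊗ₜ[k] (r : A), hmem r r.2⟩
      map_one' := rfl
      map_mul' := fun r s => by
        apply Subtype.ext
        show (1 : κ) ⊗ₜ[k] ((r : A) * (s : A)) = ((1 : κ) ⊗ₜ[k] (r : A)) * ((1 : κ) ⊗ₜ[k] (s : A))
        rw [Algebra.TensorProduct.tmul_mul_tmul, one_mul]
      map_zero' := by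
        apply Subtype.ext
        show (1 : κ) ⊗ₜ[k] (0 : A) = 0
        rw [TensorProduct.tmul_zero]
      map_add' := fun r s => by
        apply Subtype.ext
        show (1 : κ) ⊗ₜ[k] ((r : A) + (s : A)) = ((1 : κ) ⊗ₜ[k] (r : A)) + ((1 : κ) ⊗ₜ[k] (s : A))
        rw [TensorProduct.tmul_add] }
  have hcomp : (algebraMap B (κ ⊗[k] A)).comp φ = ψ.comp (algebraMap (Algebra.adjoin k {x}) A) :=
    RingHom.ext fun r => rfl
  refine ⟨fun z => ?_⟩
  induction z with
  | zero => exact isIntegral_zero
  | tmul c a =>
    have h1 : c ⊗ₜ[k] a = (algebraMap κ (κ ⊗[k] A) c) * ((1 : κ) ⊗ₜ[k] a) := by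
      rw [Algebra.TensorProduct.algebraMap_apply, Algebra.algebraMap_self, RingHom.id_apply,
        Algebra.TensorProduct.tmul_mul_tmul, mul_one, one_mul]
    rw [h1]
    refine IsIntegral.mul ?_ ?_
    · have : algebraMap κ (κ ⊗[k] A) c = algebraMap B (κ ⊗[k] A) (algebraMap κ B c) := rfl
      rw [this]
      exact isIntegral_algebraMap
    · exact IsIntegral.map_of_comp_eq φ ψ hcomp (Algebra.IsIntegral.isIntegral a)
  | add y z hy hz => exact hy.add hz

/-- **Base change of a smooth curve to a field extension is Dedekind** (once it is a domain). -/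
theorem isDedekindDomain_baseChange [Algebra.Smooth k A] (x : A)
    [Algebra.IsIntegral (Algebra.adjoin k {x}) A] [IsDomain (κ ⊗[k] A)] :
    IsDedekindDomain (κ ⊗[k] A) := by
  haveI := isIntegral_adjoin_baseChange k κ x
  exact isDedekindDomain_of_smooth κ ((1 : κ) ⊗ₜ[k] x)

end BaseChange

section Locally

universe u

/-- Locally standard smooth of some relative dimension implies smooth. -/
theorem smooth_of_locally_isStandardSmoothOfRelativeDimension {k A : Type u} [CommRing k]
    [CommRing A] [Algebra k A] (n : ℕ)
    (h : RingHom.Locally (RingHom.IsStandardSmoothOfRelativeDimension n) (algebraMap k A)) :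
    Algebra.Smooth k A := by
  rw [← RingHom.smooth_algebraMap, RingHom.smooth_iff_locally_isStandardSmooth]
  obtain ⟨s, hs, H⟩ := h
  exact ⟨s, hs, fun t ht => RingHom.IsStandardSmoothOfRelativeDimension.isStandardSmooth n _ (H t ht)⟩

end Locally

end Fermat.Agent.S25.CONN.P1.Ded6791
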