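/-
S25 support (helper9105): over an algebraically closed field `k`, the tensor product of two
`k`-algebras that are domains is a domain.  (Mathlib-only, interface independent; used for
"`κ ⊗ A_i` is a domain" (A0) and "integral over an algebraically closed field implies
geometrically integral" (SC5).)

Proof: reduce the right factor to a finitely generated subalgebra `C`; write elements of `A ⊗ C`
in a `k`-basis of `A` with coefficients in `C`; every `k`-point `φ : C → k` specialises
`A ⊗ C → A`; if `x y = 0` then for every `φ` all coefficients of `x` or all coefficients of `y`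
die, so all products of coefficients lie in every maximal ideal of `C` (Nullstellensatz), hence
vanish (`C` is a Jacobson domain).
-/
import Mathlib

set_option autoImplicit false
set_option linter.style.haveILetI false

namespace Fermat.Agent.S25.CONN.P1.H9105

open scoped TensorProduct

/-- A finitely generated domain over an algebraically closed field has enough `k`-points. -/
theorem exists_algHom_ne_zero (k : Type*) [Field k] [IsAlgClosed k] {C : Type*} [CommRing C]
    [IsDomain C] [Algebra k C] [Algebra.FiniteType k C] {c : C} (hc : c ≠ 0) :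
    ∃ φ : C →ₐ[k] k, φ c ≠ 0 := by
  have hJ : IsJacobsonRing C := isJacobsonRing_of_finiteType (A := k)
  have hbot : (⊥ : Ideal C).jacobson = ⊥ :=
    IsJacobsonRing.out' ⊥ (Ideal.isPrime_bot (α := C)).isRadical
  have hc' : c ∉ (⊥ : Ideal C).jacobson := by
    rw [hbot]
    simpa using hc
  rw [Ideal.jacobson, Submodule.mem_sInf] at hc'
  push Not at hc'
  obtain ⟨m, ⟨-, hm⟩, hcm⟩ := hc'
  haveI := hm
  letI : Field (C ⧸ m) := Ideal.Quotient.field m
  haveI : Algebra.FiniteType k (C ⧸ m) :=
    Algebra.FiniteType.of_surjective (Ideal.Quotient.mkₐ k m) (Ideal.Quotient.mkₐ_surjective k m)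
  haveI : Module.Finite k (C ⧸ m) := finite_of_finite_type_of_isJacobsonRing k (C ⧸ m)
  have hbij : Function.Bijective (algebraMap k (C ⧸ m)) :=
    IsAlgClosed.algebraMap_bijective_of_isIntegral
  let e : k ≃ₐ[k] (C ⧸ m) := AlgEquiv.ofBijective (Algebra.ofId k (C ⧸ m)) hbij
  refine ⟨(e.symm : (C ⧸ m) →ₐ[k] k).comp (Ideal.Quotient.mkₐ k m), ?_⟩
  intro h0
  apply hcm
  have h1 : e.symm (Ideal.Quotient.mk m c) = 0 := h0
  rw [map_eq_zero_iff _ e.symm.injective, Ideal.Quotient.eq_zero_iff_mem] at h1
  exact h1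

/-- The finitely generated case. -/
theorem mul_eq_zero_of_finiteType (k : Type*) [Field k] [IsAlgClosed k] (A C : Type*)
    [CommRing A] [CommRing C] [Algebra k A] [Algebra k C] [IsDomain A] [IsDomain C]
    [Algebra.FiniteType k C] (x y : A ⊗[k] C) (h : x * y = 0) : x = 0 ∨ y = 0 := by
  classical
  let ℬ := Module.Basis.ofVectorSpace k A
  let e := TensorProduct.equivFinsuppOfBasisLeft (N := C) ℬ
  let ψ : (C →ₐ[k] k) → (A ⊗[k] C →ₐ[k] A) := fun φ =>
    (Algebra.TensorProduct.rid k k A).toAlgHom.comp (Algebra.TensorProduct.map (AlgHom.id k A) φ)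
  have key : ∀ (φ : C →ₐ[k] k) (z : A ⊗[k] C) (i), ℬ.repr (ψ φ z) i = φ (e z i) := by
    intro φ z i
    induction z using TensorProduct.induction_on with
    | zero => simp
    | tmul a c =>
      have h1 : ψ φ (a ⊗ₜ[k] c) = φ c • a := by
        simp [ψ]
      rw [h1, map_smul, Finsupp.smul_apply, smul_eq_mul]
      have h2 : e (a ⊗ₜ[k] c) i = ℬ.repr a i • c :=
        TensorProduct.equivFinsuppOfBasisLeft_apply_tmul_apply ℬ a c i
      rw [h2, map_smul, smul_eq_mul, mul_comm]
    | add z₁ z₂ h₁ h₂ =>
      rw [map_add, map_add, map_add, Finsupp.add_apply, Finsupp.add_apply, map_add, h₁, h₂]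
  have hφ : ∀ φ : C →ₐ[k] k, (∀ i, φ (e x i) = 0) ∨ (∀ j, φ (e y j) = 0) := by
    intro φ
    have h1 : ψ φ x * ψ φ y = 0 := by rw [← map_mul, h, map_zero]
    rcases mul_eq_zero.mp h1 with h2 | h2
    · left
      intro i
      rw [← key φ x i, h2, map_zero, Finsupp.zero_apply]
    · right
      intro j
      rw [← key φ y j, h2, map_zero, Finsupp.zero_apply]
  have h2 : ∀ i j, e x i * e y j = 0 := by
    intro i j
    by_contra hne
    obtain ⟨φ, hφ'⟩ := exists_algHom_ne_zero k hne
    rcases hφ φ with h3 | h3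
    · exact hφ' (by rw [map_mul, h3 i, zero_mul])
    · exact hφ' (by rw [map_mul, h3 j, mul_zero])
  by_cases hx : x = 0
  · exact Or.inl hx
  · right
    have hex : e x ≠ 0 := (LinearEquiv.map_ne_zero_iff e).mpr hx
    obtain ⟨i, hi⟩ : ∃ i, e x i ≠ 0 := by
      by_contra hall
      push Not at hall
      exact hex (Finsupp.ext hall)
    have hey : e y = 0 := Finsupp.ext fun j => (mul_eq_zero.mp (h2 i j)).resolve_left hi
    exact (LinearEquiv.map_eq_zero_iff e).mp hey

theorem mem_baseChange_of_le {k : Type*} [Field k] {A B : Type*} [CommRing A] [CommRing B]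
    [Algebra k A] [Algebra k B] {C₁ C : Subalgebra k B} (h : C₁ ≤ C) {x : A ⊗[k] B}
    (hx : x ∈ C₁.baseChange A) : x ∈ C.baseChange A := by
  obtain ⟨x₁, rfl⟩ := hx
  refine ⟨Algebra.TensorProduct.map (AlgHom.id A A) (Subalgebra.inclusion h) x₁, ?_⟩
  induction x₁ using TensorProduct.induction_on with
  | zero => simp
  | tmul a c => simp
  | add z₁ z₂ h₁ h₂ => simp only [map_add, h₁, h₂]

/-- **Tensor products of domains over an algebraically closed field are domains.** -/
theorem isDomain_tensorProduct (k : Type*) [Field k] [IsAlgClosed k] (A B : Type*)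
    [CommRing A] [CommRing B] [Algebra k A] [Algebra k B] [IsDomain A] [IsDomain B] :
    IsDomain (A ⊗[k] B) := by
  haveI : Nontrivial (A ⊗[k] B) :=
    Algebra.TensorProduct.nontrivial_of_algebraMap_injective_of_isDomain k A B
      (algebraMap k A).injective (algebraMap k B).injective
  haveI : NoZeroDivisors (A ⊗[k] B) := by
    refine ⟨fun {x y} h => ?_⟩
    obtain ⟨C₁, hC₁, hx⟩ := exists_fg_and_mem_baseChange x
    obtain ⟨C₂, hC₂, hy⟩ := exists_fg_and_mem_baseChange y
    have hCfg : (C₁ ⊔ C₂).FG := hC₁.sup hC₂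
    have hι : Function.Injective
        (Algebra.TensorProduct.map (AlgHom.id A A) (C₁ ⊔ C₂).val) := by
      have h1 := Module.Flat.lTensor_preserves_injective_linearMap (M := A)
        (C₁ ⊔ C₂).val.toLinearMap Subtype.val_injective
      intro a b hab
      apply h1
      exact hab
    obtain ⟨x', rfl⟩ := mem_baseChange_of_le (le_sup_left : C₁ ≤ C₁ ⊔ C₂) hx
    obtain ⟨y', rfl⟩ := mem_baseChange_of_le (le_sup_right : C₂ ≤ C₁ ⊔ C₂) hy
    have h' : x' * y' = 0 := hι (by rw [map_mul, map_zero]; exact h)
    haveI : Algebra.FiniteType k ↥(C₁ ⊔ C₂) := (Subalgebra.fg_iff_finiteType _).mp hCfg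
    rcases mul_eq_zero_of_finiteType k A ↥(C₁ ⊔ C₂) x' y' h' with h0 | h0
    · left
      rw [h0, map_zero]
    · right
      rw [h0, map_zero]
  exact NoZeroDivisors.to_isDomain _

end Fermat.Agent.S25.CONN.P1.H9105
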