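/-
S25 (Jacobian), package A0 piece (helper6791): the chart rings of a `CurveData` (vocabulary of
helper5425's `Core.lean`) are Dedekind domains, and so are their base changes `κ ⊗[k] A_i` to any
field extension `κ` of the algebraically closed field `k`.

Uses `Dedekind6791.lean` (smooth domain integral over `K[x]` is Dedekind; Mathlib-only) and
helper9105's `TensorDomainH9105.lean` (`A ⊗[k] B` is a domain for `k` algebraically closed).
-/
import Mathlib
import Fermat.Agent.S25.Core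
import Fermat.Agent.S25.CONN.P1.Dedekind6791
import Fermat.Agent.S25.CONN.P1.TensorDomainH9105

set_option autoImplicit false
set_option linter.style.haveILetI false

open scoped TensorProduct

universe u

namespace Fermat.Agent.S25.CONN.P1.Ded6791

variable {k : Type u} [Field k] (𝒞 : CurveData k)

theorem smooth_A₁ : Algebra.Smooth k 𝒞.A₁ :=
  smooth_of_locally_isStandardSmoothOfRelativeDimension 1 𝒞.smooth₁

theorem smooth_A₂ : Algebra.Smooth k 𝒞.A₂ :=
  smooth_of_locally_isStandardSmoothOfRelativeDimension 1 𝒞.smooth₂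

theorem isIntegral_A₁ : Algebra.IsIntegral (Algebra.adjoin k ({𝒞.f} : Set 𝒞.A₁)) 𝒞.A₁ :=
  haveI := 𝒞.fin₁
  inferInstance

theorem isIntegral_A₂ : Algebra.IsIntegral (Algebra.adjoin k ({𝒞.g} : Set 𝒞.A₂)) 𝒞.A₂ :=
  haveI := 𝒞.fin₂
  inferInstance

/-- The first chart ring of a curve presentation is a Dedekind domain. -/
theorem isDedekindDomain_A₁ : IsDedekindDomain 𝒞.A₁ := by
  haveI := 𝒞.dom₁
  haveI := smooth_A₁ 𝒞
  haveI := isIntegral_A₁ 𝒞
  exact isDedekindDomain_of_smooth k 𝒞.f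

/-- The second chart ring of a curve presentation is a Dedekind domain. -/
theorem isDedekindDomain_A₂ : IsDedekindDomain 𝒞.A₂ := by
  haveI := 𝒞.dom₂
  haveI := smooth_A₂ 𝒞
  haveI := isIntegral_A₂ 𝒞
  exact isDedekindDomain_of_smooth k 𝒞.g

variable [IsAlgClosed k] (κ : Type u) [Field κ] [Algebra k κ]

theorem isDomain_tensor_A₁ : IsDomain (κ ⊗[k] 𝒞.A₁) :=
  haveI := 𝒞.dom₁
  H9105.isDomain_tensorProduct k κ 𝒞.A₁

theorem isDomain_tensor_A₂ : IsDomain (κ ⊗[k] 𝒞.A₂) :=
  haveI := 𝒞.dom₂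
  H9105.isDomain_tensorProduct k κ 𝒞.A₂

/-- `κ ⊗[k] A₁` is a Dedekind domain for every field extension `κ` of `k`. -/
theorem isDedekindDomain_tensor_A₁ : IsDedekindDomain (κ ⊗[k] 𝒞.A₁) := by
  haveI := isDomain_tensor_A₁ 𝒞 κ
  haveI := smooth_A₁ 𝒞
  haveI := isIntegral_A₁ 𝒞
  exact isDedekindDomain_baseChange k κ 𝒞.f

/-- `κ ⊗[k] A₂` is a Dedekind domain for every field extension `κ` of `k`. -/
theorem isDedekindDomain_tensor_A₂ : IsDedekindDomain (κ ⊗[k] 𝒞.A₂) := by
  haveI := isDomain_tensor_A₂ 𝒞 κ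
  haveI := smooth_A₂ 𝒞
  haveI := isIntegral_A₂ 𝒞
  exact isDedekindDomain_baseChange k κ 𝒞.g

end Fermat.Agent.S25.CONN.P1.Ded6791
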