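/-
S25 (Jacobian), package A5, lemma (Inv) in the vocabulary of `Core.lean`.  helper325.

For a curve presentation `𝒞 : CurveData k` (`k` algebraically closed) and an ARBITRARY `k`-algebra
`R`, every ideal of `B_i = R ⊗[k] 𝒞.A_i` whose quotient is finite projective over `R` is an
invertible `B_i`-module (`invertible_ideal₁`, `invertible_ideal₂`); in particular kernels of
surjections onto finite projective `R`-algebras (`invertible_ker₁/₂`) and graph ideals of points
`x : 𝒞.A_i →ₐ[k] R` (`graphIdeal`, `invertible_graphIdeal₁/₂`).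

Inputs: `Inv325.lean` (helper325), `A0Free5050.lean` (helper5050: freeness over `R[f]`),
`DedekindCurve6791.lean` (helper6791: `κ ⊗ A_i` Dedekind for every field `κ`).
-/
import Fermat.Agent.S25.CONN.P1.Inv325
import Fermat.Agent.S25.CONN.P1.A0Free5050
import Fermat.Agent.S25.CONN.P1.DedekindCurve6791

set_option autoImplicit false

universe u

namespace Fermat.Agent.S25.CONN.P1.H325

open TensorProduct Polynomial

section curve

variable {k : Type u} [Field k] [IsAlgClosed k] (𝒞 : CurveData k)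

omit [IsAlgClosed k] in
theorem finiteType_A₁ : Algebra.FiniteType k 𝒞.A₁ :=
  have := Ded6791.smooth_A₁ 𝒞
  inferInstance

omit [IsAlgClosed k] in
theorem finiteType_A₂ : Algebra.FiniteType k 𝒞.A₂ :=
  have := Ded6791.smooth_A₂ 𝒞
  inferInstance

/-- **(Inv), first chart.**  Ideals of `R ⊗[k] A₁` with finite projective quotient over `R` are
invertible modules, for every `k`-algebra `R`. -/
theorem invertible_ideal₁ (R : Type u) [CommRing R] [Algebra k R] (I : Ideal (R ⊗[k] 𝒞.A₁))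
    [Module.Finite R ((R ⊗[k] 𝒞.A₁) ⧸ I)] [Module.Projective R ((R ⊗[k] 𝒞.A₁) ⧸ I)] :
    Module.Invertible (R ⊗[k] 𝒞.A₁) I := by
  have := finiteType_A₁ 𝒞
  obtain ⟨n, b, -, -, hb⟩ := H5050.exists_polyBasis₁ 𝒞
  have hbR := hb R
  have hfun : (fun c : Fin n → R[X] =>
      ∑ i, aeval ((1 : R) ⊗ₜ[k] 𝒞.f) (c i) * ((1 : R) ⊗ₜ[k] b i)) = H5050.polyMap k R 𝒞.f b := by
    funext c
    rw [H5050.polyMap_apply]
  refine invertible_of_finite_projective_quotient (k := k) (R := R) ?_ 𝒞.f b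
    (hfun ▸ hbR.1) (hfun ▸ hbR.2) I
  intro 𝔪 h𝔪
  let _ : Field (R ⧸ 𝔪) := Ideal.Quotient.field 𝔪
  exact Ded6791.isDedekindDomain_tensor_A₁ 𝒞 (R ⧸ 𝔪)

/-- **(Inv), second chart.** -/
theorem invertible_ideal₂ (R : Type u) [CommRing R] [Algebra k R] (I : Ideal (R ⊗[k] 𝒞.A₂))
    [Module.Finite R ((R ⊗[k] 𝒞.A₂) ⧸ I)] [Module.Projective R ((R ⊗[k] 𝒞.A₂) ⧸ I)] :
    Module.Invertible (R ⊗[k] 𝒞.A₂) I := by
  have := finiteType_A₂ 𝒞
  obtain ⟨n, b, -, -, hb⟩ := H5050.exists_polyBasis₂ 𝒞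
  have hbR := hb R
  have hfun : (fun c : Fin n → R[X] =>
      ∑ i, aeval ((1 : R) ⊗ₜ[k] 𝒞.g) (c i) * ((1 : R) ⊗ₜ[k] b i)) = H5050.polyMap k R 𝒞.g b := by
    funext c
    rw [H5050.polyMap_apply]
  refine invertible_of_finite_projective_quotient (k := k) (R := R) ?_ 𝒞.g b
    (hfun ▸ hbR.1) (hfun ▸ hbR.2) I
  intro 𝔪 h𝔪
  let _ : Field (R ⧸ 𝔪) := Ideal.Quotient.field 𝔪
  exact Ded6791.isDedekindDomain_tensor_A₂ 𝒞 (R ⧸ 𝔪)

end curve

section generic

variable {k : Type u} [Field k] {R : Type u} [CommRing R] [Algebra k R]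

/-- Transport of "finite projective quotient" along the first isomorphism theorem. -/
theorem finite_projective_quotient_ker {B : Type*} {Q : Type*} [CommRing B] [Algebra R B]
    [CommRing Q] [Algebra R Q] [Module.Finite R Q] [Module.Projective R Q] (π : B →ₐ[R] Q)
    (hπ : Function.Surjective π) :
    Module.Finite R (B ⧸ RingHom.ker π.toRingHom) ∧
      Module.Projective R (B ⧸ RingHom.ker π.toRingHom) := by
  let e : (B ⧸ RingHom.ker π.toRingHom) ≃ₐ[R] Q := Ideal.quotientKerAlgEquivOfSurjective hπ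
  exact ⟨Module.Finite.equiv e.symm.toLinearEquiv, Module.Projective.of_equiv e.symm.toLinearEquiv⟩

variable {A : Type u} [CommRing A] [Algebra k A]

/-- The `R`-algebra map `R ⊗[k] A → R` attached to a point `x : A →ₐ[k] R`. -/
noncomputable def pointEval (x : A →ₐ[k] R) : R ⊗[k] A →ₐ[R] R :=
  Algebra.TensorProduct.lift (AlgHom.id R R) x (fun _ _ => Commute.all _ _)

@[simp]
theorem pointEval_tmul (x : A →ₐ[k] R) (r : R) (a : A) :
    pointEval x (r ⊗ₜ[k] a) = r * x a := by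
  simp [pointEval]

theorem pointEval_surjective (x : A →ₐ[k] R) : Function.Surjective (pointEval x) :=
  fun r => ⟨r ⊗ₜ[k] 1, by simp⟩

/-- The graph ideal of a point `x : A →ₐ[k] R`: the kernel of `R ⊗[k] A → R`. -/
noncomputable def graphIdeal (x : A →ₐ[k] R) : Ideal (R ⊗[k] A) :=
  RingHom.ker (pointEval x).toRingHom

theorem mem_graphIdeal (x : A →ₐ[k] R) (y : R ⊗[k] A) :
    y ∈ graphIdeal x ↔ pointEval x y = 0 := Iff.rfl

/-- `1 ⊗ a - x a ⊗ 1` lies in the graph ideal. -/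
theorem tmul_sub_mem_graphIdeal (x : A →ₐ[k] R) (a : A) :
    (1 : R) ⊗ₜ[k] a - x a ⊗ₜ[k] (1 : A) ∈ graphIdeal x := by
  rw [mem_graphIdeal, map_sub, pointEval_tmul, pointEval_tmul]
  simp

/-- The quotient by the graph ideal is `R`. -/
noncomputable def graphIdealQuotEquiv (x : A →ₐ[k] R) : ((R ⊗[k] A) ⧸ graphIdeal x) ≃ₐ[R] R :=
  Ideal.quotientKerAlgEquivOfSurjective (pointEval_surjective x)

end generic

section kernels

variable {k : Type u} [Field k] [IsAlgClosed k] (𝒞 : CurveData k)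
variable {R : Type u} [CommRing R] [Algebra k R]

/-- Kernels of surjections `R ⊗ A₁ → Q` onto finite projective `R`-algebras are invertible. -/
theorem invertible_ker₁ {Q : Type*} [CommRing Q] [Algebra R Q] [Module.Finite R Q]
    [Module.Projective R Q] (π : R ⊗[k] 𝒞.A₁ →ₐ[R] Q) (hπ : Function.Surjective π) :
    Module.Invertible (R ⊗[k] 𝒞.A₁) (RingHom.ker π.toRingHom) := by
  obtain ⟨h1, h2⟩ := finite_projective_quotient_ker π hπ
  exact invertible_ideal₁ 𝒞 R _

/-- Kernels of surjections `R ⊗ A₂ → Q` onto finite projective `R`-algebras are invertible. -/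
theorem invertible_ker₂ {Q : Type*} [CommRing Q] [Algebra R Q] [Module.Finite R Q]
    [Module.Projective R Q] (π : R ⊗[k] 𝒞.A₂ →ₐ[R] Q) (hπ : Function.Surjective π) :
    Module.Invertible (R ⊗[k] 𝒞.A₂) (RingHom.ker π.toRingHom) := by
  obtain ⟨h1, h2⟩ := finite_projective_quotient_ker π hπ
  exact invertible_ideal₂ 𝒞 R _

/-- Graph ideals of points of the first chart are invertible. -/
theorem invertible_graphIdeal₁ (x : 𝒞.A₁ →ₐ[k] R) :
    Module.Invertible (R ⊗[k] 𝒞.A₁) (graphIdeal x) :=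
  invertible_ker₁ 𝒞 (pointEval x) (pointEval_surjective x)

/-- Graph ideals of points of the second chart are invertible. -/
theorem invertible_graphIdeal₂ (x : 𝒞.A₂ →ₐ[k] R) :
    Module.Invertible (R ⊗[k] 𝒞.A₂) (graphIdeal x) :=
  invertible_ker₂ 𝒞 (pointEval x) (pointEval_surjective x)

end kernels

end Fermat.Agent.S25.CONN.P1.H325
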