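/-
S25 support (helper9105), package SM2 (algebra): invertibility of a module is local on the
base: if `M` becomes invertible after localizing away from each element of a set spanning
the unit ideal, then `M` is invertible (three forms: abstract localized modules, base change,
`ModuleCat.extendScalars`).  Mathlib-only.
-/
import Mathlib

set_option autoImplicit false

universe u

namespace Fermat.Agent.S25.CONN.P1.H9105

open scoped TensorProduct

/-- **Invertibility is local** (abstract localizations): if `M` becomes invertible after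
localizing away from each element of a set spanning the unit ideal, then `M` is invertible. -/
theorem invertible_of_localizationSpan' {R : Type u} [CommRing R] (M : Type u) [AddCommGroup M]
    [Module R M] (s : Set R) (hs : Ideal.span s = ⊤)
    {Mₚ : s → Type u} [∀ r, AddCommGroup (Mₚ r)] [∀ r, Module R (Mₚ r)]
    {Rₚ : s → Type u} [∀ r, CommRing (Rₚ r)] [∀ r, Algebra R (Rₚ r)]
    [∀ r : s, IsLocalization.Away r.1 (Rₚ r)]
    [∀ r, Module (Rₚ r) (Mₚ r)] [∀ r, IsScalarTower R (Rₚ r) (Mₚ r)]
    (ϕ : ∀ r : s, M →ₗ[R] Mₚ r) [∀ r : s, IsLocalizedModule (Submonoid.powers r.1) (ϕ r)]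
    (h : ∀ r : s, Module.Invertible (Rₚ r) (Mₚ r)) :
    Module.Invertible R M := by
  have hfp : Module.FinitePresentation R M :=
    .of_localizationSpan' s hs (Rₚ := Rₚ) ϕ fun r => by
      have := h r
      exact Module.finitePresentation_of_projective _ _
  constructor
  let fD (r : s) : Module.Dual R M →ₗ[R] Module.Dual (Rₚ r) (Mₚ r) :=
    IsLocalizedModule.mapExtendScalars (.powers r.1) (ϕ r) (Algebra.linearMap R (Rₚ r)) (Rₚ r)
  let f (r : s) : Module.Dual R M ⊗[R] M →ₗ[R] Module.Dual (Rₚ r) (Mₚ r) ⊗[Rₚ r] Mₚ r :=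
    ((IsLocalization.moduleTensorEquiv (.powers r.1) (Rₚ r)
      (Module.Dual (Rₚ r) (Mₚ r)) (Mₚ r)).symm.restrictScalars R).toLinearMap ∘ₗ
      TensorProduct.map (fD r) (ϕ r)
  have hf : ∀ r : s, IsLocalizedModule (.powers r.1) (f r) := fun r =>
    IsLocalizedModule.of_linearEquiv _ _ _
  refine bijective_of_isLocalized_span s hs _ f _
    (fun r => Algebra.linearMap R (Rₚ r)) _ fun r => ?_
  have key : IsLocalizedModule.map (.powers r.1) (f r)
      (Algebra.linearMap R (Rₚ r)) (contractLeft R M) =
      (contractLeft (Rₚ r) (Mₚ r)).restrictScalars R := by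
    apply IsLocalizedModule.linearMap_ext (.powers r.1) (f r) (Algebra.linearMap R (Rₚ r))
    rw [IsLocalizedModule.map_comp]
    ext φ m
    change algebraMap R _ (φ m) = contractLeft _ _ ((fD r φ) ⊗ₜ[Rₚ r] (ϕ r m))
    rw [contractLeft_apply, IsLocalizedModule.mapExtendScalars_apply_apply,
      IsLocalizedModule.map_apply]
    rfl
  rw [key]
  exact (h r).bijective

/-- **Invertibility is local**, base-change form. -/
theorem invertible_of_localizationSpan_baseChange {R : Type u} [CommRing R] (M : Type u)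
    [AddCommGroup M] [Module R M] (s : Set R) (hs : Ideal.span s = ⊤)
    {Rₚ : s → Type u} [∀ r, CommRing (Rₚ r)] [∀ r, Algebra R (Rₚ r)]
    [∀ r : s, IsLocalization.Away r.1 (Rₚ r)]
    (h : ∀ r : s, Module.Invertible (Rₚ r) (Rₚ r ⊗[R] M)) :
    Module.Invertible R M :=
  invertible_of_localizationSpan' M s hs (Rₚ := Rₚ) (Mₚ := fun r => Rₚ r ⊗[R] M)
    (fun r => TensorProduct.mk R (Rₚ r) M 1) h

section ModuleCat

set_option backward.isDefEq.respectTransparency false in
/-- **Invertibility is local**, `ModuleCat.extendScalars` form (no algebra instances: ring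
homs `f r : R →+* Rₚ r` which are localizations away from `r`). -/
theorem invertible_of_extendScalars_iso {R : Type u} [CommRing R] (M : ModuleCat.{u} R)
    (s : Set R) (hs : Ideal.span s = ⊤)
    {Rₚ : s → Type u} [∀ r, CommRing (Rₚ r)] (f : ∀ r : s, R →+* Rₚ r)
    (hloc : ∀ r : s, @IsLocalization.Away R _ r.1 (Rₚ r) _ (f r).toAlgebra)
    (h : ∀ r : s, Nonempty ((ModuleCat.extendScalars (f r)).obj M ≅ ModuleCat.of (Rₚ r) (Rₚ r))) :
    Module.Invertible R M := by
  let _ : ∀ r : s, Algebra R (Rₚ r) := fun r => (f r).toAlgebra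
  have : ∀ r : s, IsLocalization.Away r.1 (Rₚ r) := hloc
  refine invertible_of_localizationSpan_baseChange M s hs (Rₚ := Rₚ) fun r => ?_
  obtain ⟨e⟩ := h r
  have e' : (Rₚ r ⊗[R] M) ≃ₗ[Rₚ r] Rₚ r := e.toLinearEquiv
  exact Module.Invertible.congr e'.symm

end ModuleCat

end Fermat.Agent.S25.CONN.P1.H9105
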