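/-
S25 package CONN, leaf (P1), local part (helper6731): invertibility of an ideal is local on a
two-element cover `D(g) ∪ D(u)` with `u ∈ I`; products of invertible ideals are invertible.
-/
import Fermat.Agent.S25.A1.Basic
import Fermat.Agent.S25.CONN.P1.InvertibleLocalH9105

set_option autoImplicit false

universe u

namespace Fermat.Agent.S25.CONN.P1

open Fermat.Agent.S25

open scoped TensorProduct

/-- Invertibility of a localized module does not depend on the chosen model of the
localization. -/
theorem invertible_of_isLocalizedModule {R : Type*} [CommRing R] (S : Submonoid R)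
    {M : Type*} [AddCommGroup M] [Module R M]
    (A : Type*) [CommRing A] [Algebra R A] [IsLocalization S A]
    {N : Type*} [AddCommGroup N] [Module R N] [Module A N] [IsScalarTower R A N]
    (φ : M →ₗ[R] N) [IsLocalizedModule S φ] [Module.Invertible A N]
    (A' : Type*) [CommRing A'] [Algebra R A'] [IsLocalization S A']
    {N' : Type*} [AddCommGroup N'] [Module R N'] [Module A' N'] [IsScalarTower R A' N']
    (φ' : M →ₗ[R] N') [IsLocalizedModule S φ'] : Module.Invertible A' N' := by
  let σ : A ≃ₐ[R] A' := IsLocalization.algEquiv S A A'
  letI : Algebra A A' := σ.toAlgHom.toRingHom.toAlgebra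
  haveI : IsScalarTower R A A' := IsScalarTower.of_algebraMap_eq (fun x => (σ.commutes x).symm)
  letI : Module A N' := Module.compHom N' (algebraMap A A')
  haveI : IsScalarTower A A' N' := ⟨fun a a' n => by
    change (algebraMap A A' a * a') • n = algebraMap A A' a • a' • n
    rw [mul_smul]⟩
  haveI : IsScalarTower R A N' := ⟨fun x a n => by
    change algebraMap A A' (x • a) • n = x • algebraMap A A' a • n
    rw [Algebra.smul_def, map_mul, ← IsScalarTower.algebraMap_apply, mul_smul, algebraMap_smul]⟩
  have hφ : IsBaseChange A φ := IsLocalizedModule.isBaseChange S A φ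
  have hφ' : IsBaseChange A' φ' := IsLocalizedModule.isBaseChange S A' φ'
  let g : N →ₗ[A] N' := hφ.lift φ'
  have hg : IsBaseChange A' g := IsBaseChange.of_comp hφ (by
    rw [hφ.lift_comp]
    exact hφ')
  exact Module.Invertible.congr hg.equiv

/-- The localization of an ideal at one of its elements is the whole localized ring. -/
theorem isLocalizedModule_of_mem {B : Type u} [CommRing B] (I : Ideal B) (u : B) (hu : u ∈ I) :
    IsLocalizedModule (Submonoid.powers u)
      ((Algebra.linearMap B (Localization.Away u)).comp I.subtype) := by
  have hinv : algebraMap B (Localization.Away u) u * IsLocalization.Away.invSelf u = 1 :=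
    IsLocalization.Away.mul_invSelf u
  refine isLocalizedModule_of_core u (IsLocalization.Away.invSelf u) _ hinv ?_ ?_
  · intro y
    obtain ⟨n, a, ha⟩ := IsLocalization.Away.surj u y
    refine ⟨⟨u * a, I.mul_mem_right a hu⟩, n + 1, ?_⟩
    change y = IsLocalization.Away.invSelf u ^ (n + 1) * algebraMap B (Localization.Away u) (u * a)
    rw [map_mul, ← ha, pow_succ]
    calc y = y * ((algebraMap B (Localization.Away u) u * IsLocalization.Away.invSelf u) ^ n *
          (algebraMap B (Localization.Away u) u * IsLocalization.Away.invSelf u)) := by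
          rw [hinv, one_pow, mul_one, mul_one]
      _ = _ := by ring
  · intro x hx
    have hx' : algebraMap B (Localization.Away u) (x : B) = 0 := hx
    obtain ⟨⟨_, m, rfl⟩, hm⟩ := (IsLocalization.map_eq_zero_iff (Submonoid.powers u) _ _).mp hx'
    exact ⟨m, Subtype.ext hm⟩

/-- **Invertibility on a two-element cover.**  If `u ∈ I`, `u + b g = 1`, and the localization
of `I` at `g` is invertible (in any model), then `I` is invertible. -/
theorem invertible_of_cover_two {B : Type u} [CommRing B] (I : Ideal B) (g u b : B) (hu : u ∈ I)
    (hub : u + b * g = 1)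
    (A : Type u) [CommRing A] [Algebra B A] [IsLocalization.Away g A]
    {N : Type u} [AddCommGroup N] [Module B N] [Module A N] [IsScalarTower B A N]
    (φ : I →ₗ[B] N) [IsLocalizedModule (Submonoid.powers g) φ] [Module.Invertible A N] :
    Module.Invertible B I := by
  have hspan : Ideal.span ({g, u} : Set B) = ⊤ := by
    rw [Ideal.eq_top_iff_one, ← hub]
    exact Ideal.add_mem _ (Ideal.subset_span (by simp))
      (Ideal.mul_mem_left _ _ (Ideal.subset_span (by simp)))
  refine H9105.invertible_of_localizationSpan' I ({g, u} : Set B) hspan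
    (Rₚ := fun r => Localization.Away r.1)
    (Mₚ := fun r => LocalizedModule (Submonoid.powers r.1) I)
    (fun r => LocalizedModule.mkLinearMap (Submonoid.powers r.1) I) ?_
  rintro ⟨r, hr⟩
  rcases hr with rfl | hr
  · exact invertible_of_isLocalizedModule (Submonoid.powers r) A φ (Localization.Away r)
      (LocalizedModule.mkLinearMap (Submonoid.powers r) I)
  · have hr' : r = u := hr
    subst hr'
    haveI := isLocalizedModule_of_mem I r hu
    exact invertible_of_isLocalizedModule (Submonoid.powers r) (Localization.Away r)
      ((Algebra.linearMap B (Localization.Away r)).comp I.subtype) (Localization.Away r)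
      (LocalizedModule.mkLinearMap (Submonoid.powers r) I)

/-- The product of two invertible ideals is invertible. -/
theorem invertible_mul {B : Type u} [CommRing B] (I I' : Ideal B) [Module.Invertible B I]
    [Module.Invertible B I'] : Module.Invertible B (I * I' : Ideal B) := by
  let μ : I ⊗[B] I' →ₗ[B] (I * I' : Ideal B) :=
    TensorProduct.lift
      { toFun := fun a =>
          { toFun := fun c => ⟨(a : B) * (c : B), Ideal.mul_mem_mul a.2 c.2⟩
            map_add' := fun c c' => Subtype.ext (by simp [mul_add])
            map_smul' := fun t c => Subtype.ext (by simp [mul_left_comm]) }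
        map_add' := fun a a' => LinearMap.ext fun c => Subtype.ext (by simp [add_mul])
        map_smul' := fun t a => LinearMap.ext fun c => Subtype.ext (by simp [mul_assoc]) }
  have hμ : ∀ (a : I) (c : I'), ((μ (a ⊗ₜ[B] c) : (I * I' : Ideal B)) : B) = (a : B) * (c : B) :=
    fun a c => rfl
  have hinj : Function.Injective μ := by
    have h1 : Function.Injective (LinearMap.lTensor I (I'.subtype)) :=
      Module.Flat.lTensor_preserves_injective_linearMap _ Subtype.val_injective
    have h2 : Function.Injective ((I.subtype ∘ₗ (TensorProduct.rid B I).toLinearMap) ∘ₗ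
        LinearMap.lTensor I (I'.subtype)) :=
      (Subtype.val_injective.comp (TensorProduct.rid B I).injective).comp h1
    have h3 : ((I.subtype ∘ₗ (TensorProduct.rid B I).toLinearMap) ∘ₗ
        LinearMap.lTensor I (I'.subtype)) = (I * I' : Ideal B).subtype ∘ₗ μ := by
      apply TensorProduct.ext'
      intro a c
      simp [hμ, mul_comm]
    rw [h3] at h2
    intro x y hxy
    exact h2 (by rw [LinearMap.comp_apply, LinearMap.comp_apply, hxy])
  have hsurj : Function.Surjective μ := by
    have key : ∀ z ∈ (I * I' : Ideal B), ∃ t, ((μ t : (I * I' : Ideal B)) : B) = z := by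
      intro z hz
      refine Submodule.mul_induction_on hz ?_ ?_
      · intro a ha c hc
        exact ⟨(⟨a, ha⟩ : I) ⊗ₜ[B] (⟨c, hc⟩ : I'), rfl⟩
      · rintro x y ⟨px, hpx⟩ ⟨py, hpy⟩
        exact ⟨px + py, by rw [map_add, Submodule.coe_add, hpx, hpy]⟩
    rintro ⟨z, hz⟩
    obtain ⟨t, ht⟩ := key z hz
    exact ⟨t, Subtype.ext ht⟩
  exact Module.Invertible.congr (LinearEquiv.ofBijective μ ⟨hinj, hsurj⟩)

end Fermat.Agent.S25.CONN.P1
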